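import Mathlib
import Fermat.Agent.LT.T6.H189.ArchIntCut

/-!
# Row LT, tower T6, leaf T6.23.13 `U2HaarOfC` (A3) -- helper216, OFF-MAIN

`u2HaarOf216 : H189.U2HaarOfC`, i.e. `U2CompactC → U2HaarC`: the Haar probability measure of the
compact group `U(2)`, pushed forward to `GL₂(ℂ)` along the inclusion, is a probability measure
carried by `U(2)`, invariant under left and right translations by `U(2)` and under inversion.

Imports: Mathlib + `LT/T6/H189/ArchIntCut.lean` (sha256 db591abe06d241ac, byte-identical copy of
origin/helper189@45580d1ec) + its import `ArchIntSpec.lean` (sha256 4ac6c0909efd5385).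

Route: `exists_haar_of_compact_subgroup216` (any Hausdorff topological group `G`, any compact
subgroup `H`): `μ = haarMeasure ⊤` on `H`; right invariance and inversion invariance of `μ` by the
uniqueness of Haar probability measures (`isHaarMeasure_eq_of_isProbabilityMeasure`,
`isMulInvariant_eq_smul_of_compactSpace`); `κ = μ.map Subtype.val`.
-/

set_option autoImplicit false

open MeasureTheory
open scoped Matrix ENNReal

noncomputable section

namespace Fermat.Agent.LT.T6.H216

/-- The Haar probability measure of a compact subgroup `H` of a Hausdorff topological group `G`,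
as a measure on `G`: total mass one, carried by `H`, invariant under left and right translations
by the elements of `H` and under inversion. -/
theorem exists_haar_of_compact_subgroup216 {G : Type*} [Group G] [TopologicalSpace G]
    [IsTopologicalGroup G] [T2Space G] [MeasurableSpace G] [BorelSpace G]
    (H : Subgroup G) [CompactSpace H] :
    ∃ κ : Measure G, κ Set.univ = 1 ∧ κ (H : Set G)ᶜ = 0 ∧
      (∀ k ∈ H, Measure.map (fun x => k * x) κ = κ) ∧
      (∀ k ∈ H, Measure.map (fun x => x * k) κ = κ) ∧
      Measure.map (fun x : G => x⁻¹) κ = κ := by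
  let _ : MeasurableSpace H := borel H
  have _ : BorelSpace H := ⟨rfl⟩
  let μ : Measure H := Measure.haarMeasure ⊤
  have hμuniv : μ Set.univ = 1 := by
    have h := Measure.haarMeasure_self (K₀ := (⊤ : TopologicalSpace.PositiveCompacts H))
    simpa [μ] using h
  have hprob : IsProbabilityMeasure μ := ⟨hμuniv⟩
  -- right invariance
  have hright : ∀ h : H, Measure.map (fun x => x * h) μ = μ := by
    intro h
    have : IsProbabilityMeasure (Measure.map (fun x => x * h) μ) :=
      Measure.isProbabilityMeasure_map (measurable_mul_const h).aemeasurable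
    exact Measure.isHaarMeasure_eq_of_isProbabilityMeasure _ _
  have hri : μ.IsMulRightInvariant := ⟨hright⟩
  -- inversion invariance
  have hinv : Measure.map (fun x : H => x⁻¹) μ = μ := by
    have h1 : μ.inv = Measure.haarScalarFactor μ.inv μ • μ :=
      Measure.isMulInvariant_eq_smul_of_compactSpace μ.inv μ
    have h2 : μ.inv Set.univ = 1 := by
      rw [Measure.inv_apply]; simp
    have h3 : (Measure.haarScalarFactor μ.inv μ : ℝ≥0∞) = 1 := by
      have := congrArg (fun ν : Measure H => ν Set.univ) h1
      simp only [h2, Measure.smul_apply, hμuniv] at this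
      simpa using this.symm
    have h4 : μ.inv = μ := by
      rw [h1]
      have : Measure.haarScalarFactor μ.inv μ = 1 := by exact_mod_cast h3
      rw [this, one_smul]
    exact h4
  have hval : Measurable (Subtype.val : H → G) := continuous_subtype_val.measurable
  refine ⟨Measure.map Subtype.val μ, ?_, ?_, ?_, ?_, ?_⟩
  · rw [Measure.map_apply hval MeasurableSet.univ, Set.preimage_univ]; exact hμuniv
  · have hc : IsCompact (H : Set G) := isCompact_iff_compactSpace.mpr inferInstance
    have hm : MeasurableSet (H : Set G)ᶜ := hc.isClosed.measurableSet.compl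
    rw [Measure.map_apply hval hm]
    have : (Subtype.val : H → G) ⁻¹' (H : Set G)ᶜ = ∅ := by
      ext x; simp
    rw [this]; exact measure_empty
  · intro k hk
    rw [Measure.map_map (measurable_const_mul k) hval]
    have : (fun x : G => k * x) ∘ (Subtype.val : H → G)
        = Subtype.val ∘ (fun x : H => (⟨k, hk⟩ : H) * x) := by
      funext x; rfl
    rw [this, ← Measure.map_map hval (measurable_const_mul _), map_mul_left_eq_self]
  · intro k hk
    rw [Measure.map_map (measurable_mul_const k) hval]
    have : (fun x : G => x * k) ∘ (Subtype.val : H → G)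
        = Subtype.val ∘ (fun x : H => x * (⟨k, hk⟩ : H)) := by
      funext x; rfl
    rw [this, ← Measure.map_map hval (measurable_mul_const _), hright]
  · rw [Measure.map_map measurable_inv hval]
    have : (fun x : G => x⁻¹) ∘ (Subtype.val : H → G)
        = Subtype.val ∘ (fun x : H => x⁻¹) := by
      funext x; rfl
    rw [this, ← Measure.map_map hval measurable_inv, hinv]

/-- **T6.23.13 = A3 (`U2HaarOfC`).**  If `U(2)` is compact, its Haar probability measure exists as
a measure on `GL₂(ℂ)`. -/
theorem u2HaarOf216 : H189.U2HaarOfC := by
  intro hc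
  have hcs : CompactSpace H189.U2sub := hc
  let _ : MeasurableSpace (GL (Fin 2) ℂ) := borel _
  have _ : BorelSpace (GL (Fin 2) ℂ) := ⟨rfl⟩
  obtain ⟨κ, h1, h2, h3, h4, h5⟩ := exists_haar_of_compact_subgroup216 H189.U2sub
  exact ⟨κ, ⟨h1, h2, fun k hk => h3 k hk, fun k hk => h4 k hk, h5⟩⟩

end Fermat.Agent.LT.T6.H216

end
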